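import Fermat.Prelude.Def_ModularCurve_HeckeModule
import Fermat.Agent.FrobExists
import Fermat.Agent.QbarInst

/-!
# Reduction of S37 to a statement about one additive map

To prove `SpecializationExists` it suffices to construct, for each place `A` above `ℓ`, one additive
map `r` out of `J` which is inertia-invariant, whose kernel is Frobenius-stable, which kills the
Eichler-Shimura expression and which is injective on `p`-power torsion.
-/

set_option autoImplicit false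

open ModularCurve

namespace Fermat.Agent.EichlerShimura

section General

variable {K L : Type*} [Field K] [Field L] [Algebra K L]

/-- Two Frobenius elements at the same place differ by an inertia element. -/
theorem inv_mul_mem_inertia (A : ValuationSubring L) {ℓ : ℕ} {σ τ : L ≃ₐ[K] L}
    (hσ : A.IsFrobeniusAt σ ℓ) (hτ : A.IsFrobeniusAt τ ℓ) : τ⁻¹ * σ ∈ A.inertiaSubgroupIn K := by
  obtain ⟨hσ1, hσ2⟩ := hσ
  obtain ⟨hτ1, hτ2⟩ := hτ
  refine ⟨(⟨τ, hτ1⟩ : A.decompositionSubgroup K)⁻¹ * ⟨σ, hσ1⟩, ?_, rfl⟩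
  show _ ∈ MonoidHom.ker _
  rw [MonoidHom.mem_ker]
  refine RingEquiv.ext fun x => ?_
  show ((⟨τ, hτ1⟩ : A.decompositionSubgroup K)⁻¹ * ⟨σ, hσ1⟩) • x = x
  rw [mul_smul, hσ2, ← hτ2, inv_smul_smul]

variable (N p : ℕ) (J : Type) [AddCommGroup J] [Module HeckeAlg J]
  [DistribMulAction (L ≃ₐ[K] L) J] [SMulCommClass (L ≃ₐ[K] L) HeckeAlg J]

/-- The conditions on a "reduction map" `r` at a place `A` above `ℓ`. -/
structure IsReductionAt (p : ℕ) (A : ValuationSubring L) (ℓ : ℕ) (hℓ : ℓ.Prime) {G : Type*}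
    [AddCommGroup G] (r : J →+ G) : Prop where
  inertia : ∀ σ ∈ A.inertiaSubgroupIn K, ∀ x : J, r (σ • x) = r x
  frob : ∀ σ : L ≃ₐ[K] L, A.IsFrobeniusAt σ ℓ → ∀ x : J, r x = 0 → r (σ • x) = 0
  quadratic : ∀ σ : L ≃ₐ[K] L, A.IsFrobeniusAt σ ℓ → ∀ x : J,
    r (σ • σ • x - heckeGen ⟨ℓ, hℓ⟩ • (σ • x) + ℓ • x) = 0
  torsion : ∀ x : J, (∃ n : ℕ, p ^ n • x = 0) → r x = 0 → x = 0

variable {J}

/-- The largest Hecke-stable subgroup of `ker r`. -/
def kerSubmodule {G : Type*} [AddCommGroup G] (r : J →+ G) : Submodule HeckeAlg J where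
  carrier := {x | ∀ T : HeckeAlg, r (T • x) = 0}
  zero_mem' T := by rw [smul_zero, map_zero]
  add_mem' {x y} hx hy T := by rw [smul_add, map_add, hx T, hy T, add_zero]
  smul_mem' c x hx T := by rw [smul_smul]; exact hx (T * c)

theorem mem_kerSubmodule {G : Type*} [AddCommGroup G] {r : J →+ G} {x : J} :
    x ∈ kerSubmodule r ↔ ∀ T : HeckeAlg, r (T • x) = 0 := Iff.rfl

omit [SMulCommClass (L ≃ₐ[K] L) HeckeAlg J] in
theorem IsReductionAt.frob_eq {p : ℕ} {A : ValuationSubring L} {ℓ : ℕ} {hℓ : ℓ.Prime} {G : Type*}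
    [AddCommGroup G] {r : J →+ G} (hr : IsReductionAt (K := K) J p A ℓ hℓ r) {σ τ : L ≃ₐ[K] L}
    (hσ : A.IsFrobeniusAt σ ℓ) (hτ : A.IsFrobeniusAt τ ℓ) (x : J) :
    r (σ • x) = r (τ • x) := by
  have h1 := hr.inertia _ (inv_mul_mem_inertia A hσ hτ) x
  have h2 : r ((τ⁻¹ * σ) • x - x) = 0 := by rw [map_sub, h1, sub_self]
  have h3 := hr.frob τ hτ _ h2
  rw [smul_sub, smul_smul, mul_inv_cancel_left, map_sub, sub_eq_zero] at h3
  exact h3

theorem smul_quadratic (σ : L ≃ₐ[K] L) (T g : HeckeAlg) (ℓ : ℕ) (x : J) :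
    T • (σ • σ • x - g • (σ • x) + ℓ • x)
        = σ • σ • (T • x) - g • (σ • (T • x)) + ℓ • (T • x) := by
  rw [smul_add, smul_sub, smul_smul T g, mul_comm T, ← smul_smul g T,
    smul_comm σ T x, smul_comm σ T (σ • x), smul_comm T ℓ x]

theorem specializationExists_of_reduction
    (hFrob : ∀ ℓ : ℕ, ℓ.Prime → ∀ A : ValuationSubring L, A.LiesOverPrime ℓ →
      ∃ σ : L ≃ₐ[K] L, A.IsFrobeniusAt σ ℓ)
    (H : ∀ ℓ : ℕ, (hℓ : ℓ.Prime) → ¬ ℓ ∣ N * p → ∀ A : ValuationSubring L, A.LiesOverPrime ℓ →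
      ∃ (G : Type) (_ : AddCommGroup G) (r : J →+ G), IsReductionAt (K := K) J p A ℓ hℓ r) :
    SpecializationExists (K := K) (L := L) N p J := by
  intro ℓ hℓ hℓN A hA
  obtain ⟨G, _, r, hr⟩ := H ℓ hℓ hℓN A hA
  obtain ⟨σ₀, hσ₀⟩ := hFrob ℓ hℓ A hA
  let W := kerSubmodule r
  have hW : ∀ σ : L ≃ₐ[K] L, A.IsFrobeniusAt σ ℓ → ∀ x ∈ W, σ • x ∈ W := by
    intro σ hσ x hx T
    rw [← smul_comm σ T x]
    exact hr.frob σ hσ _ (hx T)
  let φ : J →ₗ[HeckeAlg] J :=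
    { toFun := fun x => σ₀ • x
      map_add' := smul_add σ₀
      map_smul' := fun T x => smul_comm σ₀ T x }
  have hφ : ∀ x, φ x = σ₀ • x := fun _ => rfl
  let F : (J ⧸ W) →ₗ[HeckeAlg] (J ⧸ W) := W.mapQ W φ (fun x hx => hW σ₀ hσ₀ x hx)
  refine ⟨J ⧸ W, inferInstance, inferInstance, W.mkQ.toAddMonoidHom, F.toAddMonoidHom, ?_, ?_⟩
  · refine ⟨?_, ?_, ?_, ?_⟩
    · intro T x
      exact W.mkQ.map_smul T x
    · intro σ hσ x
      show W.mkQ _ = W.mkQ _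
      rw [← sub_eq_zero, ← map_sub, ← LinearMap.mem_ker, Submodule.ker_mkQ]
      intro T
      rw [smul_sub, ← smul_comm σ T x, map_sub, hr.inertia σ hσ, sub_self]
    · intro σ hσ x
      show W.mkQ _ = W.mkQ (φ x)
      rw [← sub_eq_zero, ← map_sub, ← LinearMap.mem_ker, Submodule.ker_mkQ]
      intro T
      rw [hφ, smul_sub, ← smul_comm σ T x, ← smul_comm σ₀ T x, map_sub,
        hr.frob_eq hσ hσ₀, sub_self]
    · intro x hx h0
      have hxW : x ∈ W := by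
        rw [← Submodule.ker_mkQ W, LinearMap.mem_ker]
        exact h0
      exact hr.torsion x hx (by simpa using hxW 1)
  · intro y
    obtain ⟨x, rfl⟩ := W.mkQ_surjective y
    show W.mkQ (φ (φ x)) - heckeGen ⟨ℓ, hℓ⟩ • W.mkQ (φ x) + ℓ • W.mkQ x = 0
    rw [← map_smul, ← map_nsmul, ← map_sub, ← map_add, ← LinearMap.mem_ker, Submodule.ker_mkQ]
    intro T
    rw [hφ, hφ, smul_quadratic]
    exact hr.quadratic σ₀ hσ₀ (T • x)

end General

/-- S37 follows from the existence of reduction maps out of `J₀(N)` at each place `A` above `ℓ ∤ N`.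
Only compatibility with `T_ℓ` is required (condition `quadratic`). -/
theorem s37_of_reduction (N p : ℕ) [NeZero N] (hcomm : HeckeOperatorsCommuteBar N)
    (H : ∀ ℓ : ℕ, (hℓ : ℓ.Prime) → ¬ ℓ ∣ N * p →
      ∀ A : ValuationSubring (AlgebraicClosure ℚ), A.LiesOverPrime ℓ →
      ∃ (G : Type) (_ : AddCommGroup G) (r : JZero N →+ G),
        (∀ σ ∈ A.inertiaSubgroupIn ℚ, ∀ x : JZero N, r (σ • x) = r x) ∧
        (∀ σ : AlgebraicClosure ℚ ≃ₐ[ℚ] AlgebraicClosure ℚ, A.IsFrobeniusAt σ ℓ →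
          ∀ x : JZero N, r x = 0 → r (σ • x) = 0) ∧
        (∀ σ : AlgebraicClosure ℚ ≃ₐ[ℚ] AlgebraicClosure ℚ, A.IsFrobeniusAt σ ℓ →
          ∀ x : JZero N,
            r (σ • σ • x - heckeOperatorBar N ⟨ℓ, hℓ⟩ (σ • x) + ℓ • x) = 0) ∧
        (∀ x : JZero N, (∃ n : ℕ, p ^ n • x = 0) → r x = 0 → x = 0)) :
    letI := heckeModuleBar N
    ∀ (_ : SMulCommClass (AlgebraicClosure ℚ ≃ₐ[ℚ] AlgebraicClosure ℚ) HeckeAlg (JZero N)),
      SpecializationExists (K := ℚ) (L := AlgebraicClosure ℚ) N p (JZero N) := by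
  letI := heckeModuleBar N
  intro _
  refine specializationExists_of_reduction N p
    (fun ℓ hℓ A hA => FrobExists.exists_isFrobeniusAt A hℓ hA) ?_
  intro ℓ hℓ hℓN A hA
  obtain ⟨G, hG, r, h1, h2, h3, h4⟩ := H ℓ hℓ hℓN A hA
  refine ⟨G, hG, r, h1, h2, ?_, h4⟩
  intro σ hσ x
  have h := h3 σ hσ x
  rw [← heckeModuleBar_heckeGen_smul hcomm ⟨ℓ, hℓ⟩ (σ • x)] at h
  exact h

end Fermat.Agent.EichlerShimura
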