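import Fermat.Agent.EichlerShimura.ResidualAttachment
import Fermat.Agent.Lib.EigenCharacter

/-!
# S29 from the Eichler–Shimura data
-/

set_option autoImplicit false

noncomputable section

open Polynomial ModularCurve CongruenceSubgroup ModularFormClass

namespace Fermat.Agent.S29FromES

open ResidualAttachment EigenCharacter HeckeDuality

local notation "Qbar" => AlgebraicClosure ℚ
local notation "Γℚ" => (AlgebraicClosure ℚ ≃ₐ[ℚ] AlgebraicClosure ℚ)
local notation "ℤbar" => integralClosure ℤ ℂ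

section Fpbar

variable {p : ℕ} {k : Type*} [Field k] [CharP k p] (φ : ℤbar →+* k)

/-- The kernel of `ℤ̄ → k` is maximal if `k` is a field of characteristic `p > 0`. -/
theorem ker_isMaximal (hp : p.Prime) : (RingHom.ker φ).IsMaximal := by
  have hprime : (RingHom.ker φ).IsPrime := RingHom.ker_isPrime φ
  refine Ideal.isMaximal_of_isIntegral_of_isMaximal_comap (R := ℤ) (RingHom.ker φ) ?_
  have h1 : Ideal.comap (algebraMap ℤ ℤbar) (RingHom.ker φ) = Ideal.span {(p : ℤ)} := by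
    ext x
    rw [Ideal.mem_comap, RingHom.mem_ker, Ideal.mem_span_singleton]
    have : φ (algebraMap ℤ ℤbar x) = (x : k) := by simp
    rw [this]
    exact CharP.intCast_eq_zero_iff k p x
  rw [h1]
  exact PrincipalIdealRing.isMaximal_of_irreducible (Nat.prime_iff_prime_int.mp hp).irreducible

/-- `ℤ̄ / 𝔫` is algebraically closed. -/
theorem isAlgClosed_quotient (𝔫 : Ideal ℤbar) [h𝔫 : 𝔫.IsMaximal] :
    letI := Ideal.Quotient.field 𝔫
    IsAlgClosed (ℤbar ⧸ 𝔫) := by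
  let _ := Ideal.Quotient.field 𝔫
  refine IsAlgClosed.of_exists_root _ fun P hP hirr => ?_
  have hlift : P ∈ Polynomial.lifts (Ideal.Quotient.mk 𝔫) := by
    rw [Polynomial.mem_lifts]
    exact Polynomial.map_surjective _ Ideal.Quotient.mk_surjective P
  obtain ⟨Q, hQ1, hQ2, hQ3⟩ := lifts_and_natDegree_eq_and_monic hlift hP
  have hdeg : (Q.map (algebraMap ℤbar ℂ)).degree ≠ 0 := by
    rw [hQ3.degree_map, Polynomial.degree_eq_natDegree hQ3.ne_zero, hQ2]
    have := hirr.natDegree_pos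
    exact_mod_cast this.ne'
  obtain ⟨z, hz⟩ := IsAlgClosed.exists_root (Q.map (algebraMap ℤbar ℂ)) hdeg
  have hzint : IsIntegral ℤbar z := ⟨Q, hQ3, by
    rwa [Polynomial.IsRoot, Polynomial.eval_map] at hz⟩
  have hzint' : IsIntegral ℤ z := by
    have : Algebra.IsIntegral ℤ ℤbar := inferInstance
    exact isIntegral_trans z hzint
  let z' : ℤbar := ⟨z, hzint'⟩
  have hz' : algebraMap ℤbar ℂ z' = z := rfl
  refine ⟨Ideal.Quotient.mk 𝔫 z', ?_⟩
  have h0 : Q.eval z' = 0 := by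
    have hinj : Function.Injective (algebraMap ℤbar ℂ) := Subtype.val_injective
    apply hinj
    rw [map_zero, ← Polynomial.eval₂_hom, hz', ← Polynomial.eval_map]
    exact hz
  rw [← hQ1, Polynomial.eval_map, Polynomial.eval₂_hom, h0, map_zero]

end Fpbar

/-- The trivial two-dimensional representation. -/
def trivialRep (k : Type) [Field k] : ResidualGaloisRep k :=
  { V := Fin 2 → k
    finrank_eq := by simp
    ρ := 1
    factorsThroughFiniteLevel := ⟨⊥, inferInstance, fun _ _ => rfl⟩ }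

/-- The residual representation given by a matrix representation. -/
def ofMatrixRep {F k : Type} [Field F] [Field k] (i : F →+* k)
    (M : Γℚ →* Matrix (Fin 2) (Fin 2) F) (hM : ∃ L : IntermediateField ℚ Qbar,
      FiniteDimensional ℚ L ∧ ∀ g : Γℚ, (∀ x ∈ L, g x = x) → M g = 1) : ResidualGaloisRep k :=
  { V := Fin 2 → k
    finrank_eq := by simp
    ρ :=
      { toFun := fun g => Matrix.toLin' (i.mapMatrix (M g))
        map_one' := by rw [map_one, map_one, Matrix.toLin'_one]; rfl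
        map_mul' := fun g h => by rw [map_mul, map_mul, Matrix.toLin'_mul]; rfl }
    factorsThroughFiniteLevel := by
      obtain ⟨L, hL, h⟩ := hM
      refine ⟨L, hL, fun g hg => ?_⟩
      show Matrix.toLin' (i.mapMatrix (M g)) = 1
      rw [h g hg, map_one, Matrix.toLin'_one]; rfl }

theorem ofMatrixRep_apply {F k : Type} [Field F] [Field k] (i : F →+* k)
    (M : Γℚ →* Matrix (Fin 2) (Fin 2) F) (hM : ∃ L : IntermediateField ℚ Qbar,
      FiniteDimensional ℚ L ∧ ∀ g : Γℚ, (∀ x ∈ L, g x = x) → M g = 1) (g : Γℚ) :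
    (ofMatrixRep i M hM).ρ g = (Matrix.toLin' (i.mapMatrix (M g)) : Module.End k (Fin 2 → k)) := rfl

theorem charpoly_ofMatrixRep {F k : Type} [Field F] [Field k] (i : F →+* k)
    (M : Γℚ →* Matrix (Fin 2) (Fin 2) F) (hM : ∃ L : IntermediateField ℚ Qbar,
      FiniteDimensional ℚ L ∧ ∀ g : Γℚ, (∀ x ∈ L, g x = x) → M g = 1) (g : Γℚ) :
    LinearMap.charpoly ((ofMatrixRep i M hM).ρ g) =
      X ^ 2 - C (i (M g).trace) * X + C (i (M g).det) := by
  have h1 : LinearMap.charpoly ((ofMatrixRep i M hM).ρ g) = (i.mapMatrix (M g)).charpoly :=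
    Matrix.charpoly_toLin' _
  rw [h1, Matrix.charpoly_fin_two]
  congr 2
  · congr 2
    simp [Matrix.trace]
  · exact (RingHom.map_det i (M g)).symm

/-- The Eichler–Shimura input at `(N, p)`: a smooth Galois–Hecke module satisfying the prelude's
`EichlerShimuraDataAt`. -/
def ESInput (N p : ℕ) : Prop :=
  ∃ (J : Type) (_ : AddCommGroup J) (_ : Module HeckeAlg J) (_ : DistribMulAction Γℚ J)
    (_ : SMulCommClass Γℚ HeckeAlg J),
    Smooth J ∧ EichlerShimuraDataAt (K := ℚ) (L := Qbar) N p J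

theorem s29_of_ES (hden : FrobDensity)
    {N : ℕ} {g : CuspForm (CongruenceSubgroup.Gamma0 N) 2} (hg : g.IsNormalizedEigenform)
    {p : ℕ} (hp : p.Prime) (hES : N ≠ 0 → ESInput N p) {k : Type} [Field k] [CharP k p]
    (φ : integralClosure ℤ ℂ →+* k) :
    ∃ ρ : ResidualGaloisRep k, ρ.IsAttachedTo g φ ∧
      ∀ ℓ : ℕ, ℓ.Prime → ¬ ℓ ∣ N * p → ρ.IsUnramifiedAt ℓ := by
  rcases eq_or_ne N 0 with rfl | hN
  · exact ⟨trivialRep k, fun ℓ _ h => absurd (dvd_zero ℓ) h,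
      fun ℓ _ h => absurd (by rw [zero_mul]; exact dvd_zero ℓ) h⟩
  have : NeZero N := ⟨hN⟩
  obtain ⟨J, _, _, _, _, hs, hur, hfr, hsup⟩ := hES hN
  -- the coefficient ring
  let χ := eigenChar hg
  let 𝒪 : Subring ℂ := χ.range
  have h𝒪 : ∀ ℓ : Nat.Primes, qCoeff g ℓ ∈ 𝒪 := fun ℓ => ⟨_, eigenChar_gen hg ℓ.2⟩
  have h𝒪int : ∀ x : 𝒪, IsIntegral ℤ (x : ℂ) := by
    rintro ⟨_, t, rfl⟩
    exact isIntegral_eigenChar hg t
  let j : 𝒪 →+* ℤbar :=
    { toFun := fun x => ⟨x, h𝒪int x⟩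
      map_one' := rfl
      map_zero' := rfl
      map_add' := fun _ _ => rfl
      map_mul' := fun _ _ => rfl }
  let φ₁ : 𝒪 →+* k := φ.comp j
  let k₀ : Subring k := φ₁.range
  have hfin : Finite k₀ := by
    let ψ : CuspForm.heckeAlgebra N 2 ∅ →+* k₀ := φ₁.rangeRestrict.comp χ.rangeRestrict
    have hψ : Function.Surjective ψ :=
      φ₁.rangeRestrict_surjective.comp χ.rangeRestrict_surjective
    have : Module.Finite ℤ k₀ := Module.Finite.of_surjective ψ.toIntAlgHom.toLinearMap hψ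
    have hchar : CharP k₀ p := (Subring.subtype k₀).charP Subtype.val_injective p
    let _ : Algebra (ZMod p) k₀ := ZMod.algebra _ p
    have : Module.Finite (ZMod p) k₀ := Module.Finite.of_restrictScalars_finite ℤ (ZMod p) k₀
    have : NeZero p := ⟨hp.ne_zero⟩
    exact Module.finite_of_finite (ZMod p)
  let _ : Field k₀ := (Finite.isField_of_domain k₀).toField
  let φ₀ : 𝒪 →+* k₀ := φ₁.rangeRestrict
  let a₀ : Nat.Primes → k₀ := fun ℓ => φ₀ ⟨qCoeff g ℓ, h𝒪 ℓ⟩
  let 𝔪 : Ideal HeckeAlg := eigenIdeal a₀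
  have hIsEig : IsEigenformIdeal N 𝔪 := ⟨g, hg, k₀, inferInstance, hfin, 𝒪, h𝒪, φ₀, rfl⟩
  have hp𝔪 : (p : HeckeAlg) ∈ 𝔪 := by
    rw [mem_eigenIdeal_iff, map_natCast]
    have hchar : CharP k₀ p := (Subring.subtype k₀).charP Subtype.val_injective p
    exact CharP.cast_eq_zero k₀ p
  have h𝔪max : 𝔪.IsMaximal := by
    have hpr : 𝔪.IsPrime := RingHom.ker_isPrime _
    have hinj : Function.Injective (Ideal.Quotient.lift 𝔪 (MvPolynomial.aeval a₀ : HeckeAlg →ₐ[ℤ] k₀).toRingHom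
        (fun x hx => (mem_eigenIdeal_iff a₀ x).mp hx)) := by
      rw [injective_iff_map_eq_zero]
      intro x hx
      obtain ⟨y, rfl⟩ := Ideal.Quotient.mk_surjective x
      rw [Ideal.Quotient.lift_mk] at hx
      exact Ideal.Quotient.eq_zero_iff_mem.mpr hx
    have : Finite (HeckeAlg ⧸ 𝔪) := Finite.of_injective _ hinj
    exact Ideal.Quotient.maximal_of_isField 𝔪 (Finite.isField_of_domain _)
  have hne : MTorsionNeBot HeckeAlg J 𝔪 := hsup 𝔪 hIsEig hp𝔪
  -- the algebraically closed field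
  have hker : (RingHom.ker φ).IsMaximal := ker_isMaximal φ hp
  let F := ℤbar ⧸ RingHom.ker φ
  let _ : Field F := Ideal.Quotient.field _
  have : IsAlgClosed F := isAlgClosed_quotient (RingHom.ker φ)
  let i : F →+* k := RingHom.kerLift φ
  have hi : Function.Injective i := RingHom.kerLift_injective φ
  have hiF : ∀ x : ℤbar, i (Ideal.Quotient.mk _ x) = φ x := fun x => rfl
  have hcharF : CharP F p := i.charP hi p
  let θ₁ : HeckeAlg →+* F :=
    (MvPolynomial.aeval (R := ℤ) fun ℓ : Nat.Primes =>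
      (Ideal.Quotient.mk (RingHom.ker φ) (j ⟨qCoeff g ℓ, h𝒪 ℓ⟩) : F)).toRingHom
  have hcomp : i.comp θ₁ = (Subring.subtype k₀).comp (MvPolynomial.aeval (R := ℤ) a₀).toRingHom := by
    refine MvPolynomial.ringHom_ext (fun r => ?_) fun ℓ => ?_
    · simp [θ₁]
    · simp only [RingHom.comp_apply, AlgHom.toRingHom_eq_coe, RingHom.coe_coe, θ₁,
        MvPolynomial.aeval_X, hiF]
      rfl
  let θ : HeckeAlg ⧸ 𝔪 →+* F := Ideal.Quotient.lift 𝔪 θ₁ (by
    intro x hx
    apply hi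
    have h1 : i (θ₁ x) = ((MvPolynomial.aeval (R := ℤ) a₀ x : k₀) : k) := RingHom.congr_fun hcomp x
    rw [h1, map_zero, (mem_eigenIdeal_iff a₀ x).mp hx]
    rfl)
  obtain ⟨M, hM1, hM2, hM3⟩ := exists_matrixRep_of_mTorsion (F := F) hden hp hN hs hur hfr 𝔪 hp𝔪 hne θ
  refine ⟨ofMatrixRep i M hM1, ?_, ?_⟩
  · intro ℓ hℓ hℓN hℓk A hA σ hσ
    have hℓNp : ¬ ℓ ∣ N * p := by
      intro h
      rcases hℓ.dvd_mul.mp h with h | h
      · exact hℓN h
      · rw [(Nat.prime_dvd_prime_iff_eq hℓ hp).mp h] at hℓk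
        exact hℓk (CharP.cast_eq_zero k p)
    refine ⟨j ⟨qCoeff g ℓ, h𝒪 ⟨ℓ, hℓ⟩⟩, rfl, ?_⟩
    obtain ⟨h1, h2⟩ := hM3 ℓ hℓ hℓNp A hA σ hσ
    rw [charpoly_ofMatrixRep, h1, h2, map_natCast]
    congr 3
    show C (i (θ₁ (heckeGen ⟨ℓ, hℓ⟩))) = _
    congr 1
    have : θ₁ (heckeGen ⟨ℓ, hℓ⟩) = Ideal.Quotient.mk (RingHom.ker φ) (j ⟨qCoeff g ℓ, h𝒪 ⟨ℓ, hℓ⟩⟩) :=
      MvPolynomial.aeval_X _ _
    rw [this, hiF]
  · intro ℓ hℓ hℓNp A hA σ hσ
    rw [ofMatrixRep_apply, hM2 ℓ hℓ hℓNp A hA σ hσ, map_one, Matrix.toLin'_one]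
    rfl

end Fermat.Agent.S29FromES
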