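import Mathlib
import Fermat.Prelude.Def_GaloisRep_Residual
import Fermat.Prelude.Def_ModularCurve_EigenformIdeal
import Fermat.Agent.QbarInst
import Fermat.Agent.QuadraticModules
import Fermat.Agent.Lib.Cyclotomic

/-!
# Attaching residual Galois representations to Hecke eigensystems occurring in a Galois module
-/

set_option autoImplicit false

noncomputable section

open Polynomial

namespace Fermat.Agent.ResidualAttachment

local notation "Qbar" => AlgebraicClosure ℚ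
local notation "Γℚ" => (AlgebraicClosure ℚ ≃ₐ[ℚ] AlgebraicClosure ℚ)

/-- The (existence part of the) Frobenius density theorem. -/
def FrobDensity : Prop :=
  ∀ (g : Γℚ) (L : IntermediateField ℚ Qbar), FiniteDimensional ℚ L → ∀ S : Finset ℕ,
    ∃ ℓ : ℕ, ℓ.Prime ∧ ℓ ∉ S ∧ ∃ A : ValuationSubring Qbar, A.LiesOverPrime ℓ ∧
      ∃ σ : Γℚ, A.IsFrobeniusAt σ ℓ ∧ ∃ k : ℕ, ∀ x ∈ L, g x = (σ ^ k) x

section StepA

variable {F : Type*} [Field F] [IsAlgClosed F] {W : Type*} [AddCommGroup W] [Module F W]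
  [FiniteDimensional F W] [Nontrivial W]

open QuadraticModules

theorem finiteDimensional_sup {L₁ L₂ : IntermediateField ℚ Qbar} (h₁ : FiniteDimensional ℚ L₁)
    (h₂ : FiniteDimensional ℚ L₂) : FiniteDimensional ℚ (L₁ ⊔ L₂ : IntermediateField ℚ Qbar) :=
  IntermediateField.finiteDimensional_sup L₁ L₂

/-- **Step A**: a nonzero finite-dimensional `G_ℚ`-module over an algebraically closed field of
characteristic `p`, of finite level, unramified outside `Np`, on which Frobenius elements satisfy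
the Eichler–Shimura quadratic relation, gives a two-dimensional representation with the expected
Frobenius traces and determinants. -/
theorem exists_matrixRep_of_frobeniusQuadratic (hden : FrobDensity) {N p : ℕ} (hp : p.Prime)
    (hN : N ≠ 0) [CharP F p]
    (σW : Γℚ →* Module.End F W) (hlev : ∃ L : IntermediateField ℚ Qbar, FiniteDimensional ℚ L ∧
      ∀ g : Γℚ, (∀ x ∈ L, g x = x) → σW g = 1)
    (hur : ∀ ℓ : ℕ, ℓ.Prime → ¬ ℓ ∣ N * p → ∀ A : ValuationSubring Qbar, A.LiesOverPrime ℓ →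
      ∀ g ∈ A.inertiaSubgroupIn ℚ, σW g = 1)
    (a : ℕ → F)
    (hfrob : ∀ ℓ : ℕ, ℓ.Prime → ¬ ℓ ∣ N * p → ∀ A : ValuationSubring Qbar, A.LiesOverPrime ℓ →
      ∀ g : Γℚ, A.IsFrobeniusAt g ℓ → σW g * σW g - a ℓ • σW g + (ℓ : F) • 1 = 0) :
    ∃ M : Γℚ →* Matrix (Fin 2) (Fin 2) F,
      (∃ L : IntermediateField ℚ Qbar, FiniteDimensional ℚ L ∧
        ∀ g : Γℚ, (∀ x ∈ L, g x = x) → M g = 1) ∧
      (∀ ℓ : ℕ, ℓ.Prime → ¬ ℓ ∣ N * p → ∀ A : ValuationSubring Qbar, A.LiesOverPrime ℓ →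
        ∀ g ∈ A.inertiaSubgroupIn ℚ, M g = 1) ∧
      (∀ ℓ : ℕ, ℓ.Prime → ¬ ℓ ∣ N * p → ∀ A : ValuationSubring Qbar, A.LiesOverPrime ℓ →
        ∀ g : Γℚ, A.IsFrobeniusAt g ℓ → (M g).trace = a ℓ ∧ (M g).det = (ℓ : F)) := by
  have : NeZero p := ⟨hp.ne_zero⟩
  let ι : ZMod p →+* F := ZMod.castHom dvd_rfl F
  let d : Γℚ →* F :=
    (ι : ZMod p →* F).comp ((Units.coeHom (ZMod p)).comp (Cyclotomic.cyc p))
  have hd : ∀ g, d g = ι (Cyclotomic.cyc p g : ZMod p) := fun g => rfl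
  have hdfrob : ∀ ℓ : ℕ, ℓ.Prime → ¬ ℓ ∣ N * p → ∀ A : ValuationSubring Qbar,
      A.LiesOverPrime ℓ → ∀ g : Γℚ, A.IsFrobeniusAt g ℓ → d g = (ℓ : F) := by
    intro ℓ hℓ hℓN A hA g hg
    rw [hd, Cyclotomic.cyc_frobenius hℓ (fun h => hℓN (h.mul_left N)) A hA hg, map_natCast]
  -- scalar relation at Frobenius elements
  have hscal : ∀ ℓ : ℕ, ℓ.Prime → ¬ ℓ ∣ N * p → ∀ A : ValuationSubring Qbar,
      A.LiesOverPrime ℓ → ∀ g : Γℚ, A.IsFrobeniusAt g ℓ →
        σW g + d g • σW g⁻¹ = a ℓ • (1 : Module.End F W) := by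
    intro ℓ hℓ hℓN A hA g hg
    have h := hfrob ℓ hℓ hℓN A hA g hg
    rw [← hdfrob ℓ hℓ hℓN A hA g hg] at h
    have h1 := congrArg (fun y => y * σW g⁻¹) h
    simp only [add_mul, sub_mul, zero_mul, smul_mul_assoc, one_mul, mul_assoc,
      map_mul_inv_self, mul_one] at h1
    have h2 := congrArg (fun y => y + a ℓ • (1 : Module.End F W)) h1
    simp only [zero_add] at h2
    rw [← h2]; abel
  obtain ⟨L₁, hL₁, h₁⟩ := hlev
  obtain ⟨L₂, hL₂, h₂⟩ := Cyclotomic.cyc_finite_level p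
  set L : IntermediateField ℚ Qbar := L₁ ⊔ L₂ with hL
  have hLfin : FiniteDimensional ℚ L := finiteDimensional_sup hL₁ hL₂
  have hLσ : ∀ g : Γℚ, (∀ x ∈ L, g x = x) → σW g = 1 := fun g hg =>
    h₁ g fun x hx => hg x (le_sup_left (a := L₁) (b := L₂) hx)
  have hLd : ∀ g : Γℚ, (∀ x ∈ L, g x = x) → d g = 1 := fun g hg => by
    rw [hd, h₂ g fun x hx => hg x (le_sup_right (a := L₁) (b := L₂) hx), Units.val_one, map_one]
  -- scalar relation everywhere
  have hall : ∀ g : Γℚ, ∃ t : F, σW g + d g • σW g⁻¹ = t • (1 : Module.End F W) := by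
    intro g
    obtain ⟨ℓ, hℓ, hℓS, A, hA, σ, hσ, k, hk⟩ := hden g L hLfin (N * p).primeFactors
    have hℓN : ¬ ℓ ∣ N * p := fun h =>
      hℓS (Nat.mem_primeFactors.mpr ⟨hℓ, h, mul_ne_zero hN hp.ne_zero⟩)
    have hs : ScalarAt σW d σ := ⟨a ℓ, hscal ℓ hℓ hℓN A hA σ hσ⟩
    obtain ⟨t, ht⟩ := hs.pow k
    refine ⟨t, ?_⟩
    have hfix : ∀ x ∈ L, ((σ ^ k)⁻¹ * g) x = x := by
      intro x hx
      rw [AlgEquiv.mul_apply, hk x hx, ← AlgEquiv.mul_apply, inv_mul_cancel, AlgEquiv.one_apply]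
    have e1 : σW g = σW (σ ^ k) := by
      have := hLσ _ hfix
      rw [map_mul] at this
      calc σW g = σW (σ ^ k) * (σW (σ ^ k)⁻¹ * σW g) := by
            rw [← mul_assoc, map_mul_inv_self, one_mul]
        _ = _ := by rw [this, mul_one]
    have e2 : d g = d (σ ^ k) := by
      have := hLd _ hfix
      rw [map_mul] at this
      calc d g = d (σ ^ k) * (d (σ ^ k)⁻¹ * d g) := by
            rw [← mul_assoc, d_mul_inv, one_mul]
        _ = _ := by rw [this, mul_one]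
    have e3 : σW g⁻¹ = σW (σ ^ k)⁻¹ := by
      have h1 := map_inv_mul_self σW g
      have h2 := map_mul_inv_self σW (σ ^ k)
      rw [← e1] at h2
      calc σW g⁻¹ = σW g⁻¹ * (σW g * σW (σ ^ k)⁻¹) := by rw [h2, mul_one]
        _ = _ := by rw [← mul_assoc, h1, one_mul]
    rw [e1, e2, e3]
    exact ht
  choose t ht using hall
  obtain ⟨M, hM1, hM2⟩ := exists_matrixRep (σ := σW) (d := d) (t := t) ht
  have hinj : ∀ x y : F, x • (1 : Module.End F W) = y • (1 : Module.End F W) → x = y := by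
    intro x y hxy
    obtain ⟨w, hw⟩ := exists_ne (0 : W)
    have := LinearMap.congr_fun hxy w
    simp only [LinearMap.smul_apply, Module.End.one_apply] at this
    exact smul_left_injective F hw this
  refine ⟨M, ⟨L, hLfin, fun g hg => hM2 g (hLσ g hg) (hLd g hg)⟩, ?_, ?_⟩
  · intro ℓ hℓ hℓN A hA g hg
    refine hM2 g (hur ℓ hℓ hℓN A hA g hg) ?_
    rw [hd, Cyclotomic.cyc_inertia hℓ (fun h => hℓN (h.mul_left N)) A hA hg, Units.val_one,
      map_one]
  · intro ℓ hℓ hℓN A hA g hg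
    refine ⟨?_, ?_⟩
    · rw [(hM1 g).1]
      exact hinj _ _ (by rw [← ht g, hscal ℓ hℓ hℓN A hA g hg])
    · rw [(hM1 g).2]
      exact hdfrob ℓ hℓ hℓN A hA g hg

end StepA

section StepB

open ModularCurve

variable (J : Type) [AddCommGroup J] [Module HeckeAlg J] [DistribMulAction Γℚ J]
  [SMulCommClass Γℚ HeckeAlg J]

/-- The action is smooth: every point is fixed by an open subgroup. -/
def Smooth : Prop := ∀ x : J, ∃ L : IntermediateField ℚ Qbar, FiniteDimensional ℚ L ∧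
  ∀ g : Γℚ, (∀ y ∈ L, g y = y) → g • x = x

variable {J}

omit [Module HeckeAlg J] [SMulCommClass Γℚ HeckeAlg J] in
theorem finite_orbit (hs : Smooth J) (x : J) : (Set.range fun g : Γℚ => g • x).Finite := by
  obtain ⟨L, hL, h⟩ := hs x
  -- the orbit map factors through the restriction to `L`
  have hfac : ∀ g h' : Γℚ, (g : Qbar →ₐ[ℚ] Qbar).comp L.val = (h' : Qbar →ₐ[ℚ] Qbar).comp L.val →
      g • x = h' • x := by
    intro g h' hgh
    have h1 : ∀ y ∈ L, (h'⁻¹ * g) y = y := by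
      intro y hy
      have h2 : g y = h' y := AlgHom.congr_fun hgh ⟨y, hy⟩
      rw [AlgEquiv.mul_apply, h2, ← AlgEquiv.mul_apply, inv_mul_cancel, AlgEquiv.one_apply]
    have h3 := h _ h1
    rw [mul_smul, inv_smul_eq_iff] at h3
    exact h3
  have hfin : Finite (L →ₐ[ℚ] Qbar) := inferInstance
  let r : Γℚ → (L →ₐ[ℚ] Qbar) := fun g => (g : Qbar →ₐ[ℚ] Qbar).comp L.val
  have : (Set.range fun g : Γℚ => g • x) =
      (fun e : Set.range r => (e.2.choose) • x) '' Set.univ := by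
    ext y
    constructor
    · rintro ⟨g, rfl⟩
      refine ⟨⟨r g, g, rfl⟩, trivial, ?_⟩
      exact hfac _ _ (Exists.choose_spec (⟨g, rfl⟩ : ∃ g', r g' = r g))
    · rintro ⟨e, -, rfl⟩
      exact ⟨_, rfl⟩
  rw [this]
  exact Set.toFinite _

/-- **Step B.** -/
theorem exists_matrixRep_of_mTorsion (hden : FrobDensity) {N p : ℕ} (hp : p.Prime)
    (hN : N ≠ 0) {F : Type} [Field F] [IsAlgClosed F] [CharP F p]
    (hs : Smooth J)
    (hur : UnramifiedOutside (K := ℚ) (L := Qbar) N p J)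
    (hfr : FrobeniusQuadratic (K := ℚ) (L := Qbar) N p J)
    (𝔪 : Ideal HeckeAlg) [h𝔪 : 𝔪.IsMaximal] (hp𝔪 : (p : HeckeAlg) ∈ 𝔪)
    (hne : MTorsionNeBot HeckeAlg J 𝔪) (θ : HeckeAlg ⧸ 𝔪 →+* F) :
    ∃ M : Γℚ →* Matrix (Fin 2) (Fin 2) F,
      (∃ L : IntermediateField ℚ Qbar, FiniteDimensional ℚ L ∧
        ∀ g : Γℚ, (∀ x ∈ L, g x = x) → M g = 1) ∧
      (∀ ℓ : ℕ, ℓ.Prime → ¬ ℓ ∣ N * p → ∀ A : ValuationSubring Qbar, A.LiesOverPrime ℓ →
        ∀ g ∈ A.inertiaSubgroupIn ℚ, M g = 1) ∧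
      (∀ (ℓ : ℕ) (hℓ : ℓ.Prime), ¬ ℓ ∣ N * p → ∀ A : ValuationSubring Qbar,
        A.LiesOverPrime ℓ → ∀ g : Γℚ, A.IsFrobeniusAt g ℓ →
          (M g).trace = θ (Ideal.Quotient.mk 𝔪 (heckeGen ⟨ℓ, hℓ⟩)) ∧ (M g).det = (ℓ : F)) := by
  classical
  let _ : Field (HeckeAlg ⧸ 𝔪) := Ideal.Quotient.field 𝔪
  let κ := HeckeAlg ⧸ 𝔪
  obtain ⟨x, hx⟩ : ∃ x : heckeTorsion J 𝔪, x ≠ 0 := by
    by_contra h
    push Not at h
    apply hne
    rw [eq_bot_iff]
    intro y hy
    have := h ⟨y, hy⟩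
    simpa using congrArg Subtype.val this
  let R : Γℚ →* Module.End κ (heckeTorsion J 𝔪) := mTorsionGaloisRep J 𝔪
  have hR : ∀ g (y : heckeTorsion J 𝔪), ((R g y : heckeTorsion J 𝔪) : J) = g • (y : J) :=
    fun g y => rfl
  have hpt : ∀ y : heckeTorsion J 𝔪, p ^ 1 • (y : J) = 0 := by
    intro y
    have h1 := (mem_heckeTorsion_iff J 𝔪 (y : J)).mp y.2 _ hp𝔪
    rw [pow_one, ← Nat.cast_smul_eq_nsmul HeckeAlg]
    exact h1
  let orb : Set (heckeTorsion J 𝔪) := Set.range fun g => R g x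
  have horb : orb.Finite := by
    have h1 := finite_orbit hs (x : J)
    refine Set.Finite.of_finite_image (f := Subtype.val) ?_ Subtype.val_injective.injOn
    convert h1 using 1
    ext y
    simp only [orb, Set.mem_image, Set.mem_range]
    constructor
    · rintro ⟨_, ⟨g, rfl⟩, rfl⟩; exact ⟨g, rfl⟩
    · rintro ⟨g, rfl⟩; exact ⟨_, ⟨g, rfl⟩, rfl⟩
  let W₀ : Submodule κ (heckeTorsion J 𝔪) := Submodule.span κ orb
  have hW₀ : ∀ g, ∀ y ∈ W₀, R g y ∈ W₀ := by
    intro g y hy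
    induction hy using Submodule.span_induction with
    | mem y hy =>
      obtain ⟨h, rfl⟩ := hy
      exact Submodule.subset_span ⟨g * h, by simp only [map_mul]; rfl⟩
    | zero => rw [map_zero]; exact W₀.zero_mem
    | add y z _ _ hy hz => rw [map_add]; exact W₀.add_mem hy hz
    | smul c y _ hy => rw [map_smul]; exact W₀.smul_mem c hy
  have hfd : FiniteDimensional κ W₀ := FiniteDimensional.span_of_finite κ horb
  have hxW : x ∈ W₀ := Submodule.subset_span ⟨1, by simp⟩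
  have hnt : Nontrivial W₀ := ⟨⟨⟨x, hxW⟩, 0, fun h => hx (congrArg Subtype.val h)⟩⟩
  let σ₀ : Γℚ →* Module.End κ W₀ :=
    { toFun := fun g => (R g).restrict (hW₀ g)
      map_one' := by
        ext y
        simp [LinearMap.restrict_apply]
      map_mul' := fun g h => by
        ext y
        simp [LinearMap.restrict_apply] }
  have hσ₀ : ∀ g (y : W₀), (((σ₀ g y : W₀) : heckeTorsion J 𝔪) : J) = g • ((y : heckeTorsion J 𝔪) : J) :=
    fun g y => rfl
  -- base change to `F`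
  let _ : Algebra κ F := θ.toAlgebra
  have hθ : ∀ c : κ, algebraMap κ F c = θ c := fun c => rfl
  let W := TensorProduct κ F W₀
  let σW : Γℚ →* Module.End F W :=
    { toFun := fun g => (σ₀ g).baseChange F
      map_one' := by rw [map_one, LinearMap.baseChange_one]
      map_mul' := fun g h => by rw [map_mul, LinearMap.baseChange_mul] }
  have hσW : ∀ g, σW g = (σ₀ g).baseChange F := fun g => rfl
  have hntW : Nontrivial W := by
    have : Module.finrank F W = Module.finrank κ W₀ := Module.finrank_baseChange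
    exact Module.nontrivial_of_finrank_pos (R := F) (by rw [this]; exact Module.finrank_pos)
  have hfdW : FiniteDimensional F W := inferInstance
  -- finite level
  have hlev : ∃ L : IntermediateField ℚ Qbar, FiniteDimensional ℚ L ∧
      ∀ g : Γℚ, (∀ x ∈ L, g x = x) → σW g = 1 := by
    choose Lf hLf1 hLf2 using hs
    let L : IntermediateField ℚ Qbar := ⨆ y : orb, Lf ((y : heckeTorsion J 𝔪) : J)
    have : Finite orb := horb
    refine ⟨L, ?_, ?_⟩
    · have : ∀ y : orb, FiniteDimensional ℚ (Lf ((y : heckeTorsion J 𝔪) : J)) := fun y => hLf1 _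
      exact IntermediateField.finiteDimensional_iSup_of_finite
    · intro g hg
      have h1 : σ₀ g = 1 := by
        refine LinearMap.ext fun y => Subtype.ext ?_
        have h2 : ∀ y ∈ W₀, R g y = y := by
          intro y hy
          induction hy using Submodule.span_induction with
          | mem y hy =>
            refine Subtype.ext ?_
            rw [hR]
            exact hLf2 _ g fun z hz => hg z (le_iSup (fun y : orb => Lf ((y : heckeTorsion J 𝔪) : J))
              ⟨y, hy⟩ hz)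
          | zero => rw [map_zero]
          | add y z _ _ hy hz => rw [map_add, hy, hz]
          | smul c y _ hy => rw [map_smul, hy]
        exact h2 y y.2
      rw [hσW, h1, LinearMap.baseChange_one]
  have hur' : ∀ ℓ : ℕ, ℓ.Prime → ¬ ℓ ∣ N * p → ∀ A : ValuationSubring Qbar, A.LiesOverPrime ℓ →
      ∀ g ∈ A.inertiaSubgroupIn ℚ, σW g = 1 := by
    intro ℓ hℓ hℓN A hA g hg
    have h1 : σ₀ g = 1 := by
      refine LinearMap.ext fun y => Subtype.ext (Subtype.ext ?_)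
      rw [hσ₀]
      exact hur ℓ hℓ hℓN A hA g hg _ ⟨1, hpt _⟩
    rw [hσW, h1, LinearMap.baseChange_one]
  let a : ℕ → F := fun ℓ => if hℓ : ℓ.Prime then θ (Ideal.Quotient.mk 𝔪 (heckeGen ⟨ℓ, hℓ⟩)) else 0
  have ha : ∀ (ℓ : ℕ) (hℓ : ℓ.Prime), a ℓ = θ (Ideal.Quotient.mk 𝔪 (heckeGen ⟨ℓ, hℓ⟩)) :=
    fun ℓ hℓ => dif_pos hℓ
  have hfrob : ∀ ℓ : ℕ, ℓ.Prime → ¬ ℓ ∣ N * p → ∀ A : ValuationSubring Qbar,
      A.LiesOverPrime ℓ → ∀ g : Γℚ, A.IsFrobeniusAt g ℓ →
        σW g * σW g - a ℓ • σW g + (ℓ : F) • 1 = 0 := by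
    intro ℓ hℓ hℓN A hA g hg
    have h1 : σ₀ g * σ₀ g - (Ideal.Quotient.mk 𝔪 (heckeGen ⟨ℓ, hℓ⟩)) • σ₀ g + (ℓ : κ) • 1 = 0 := by
      refine LinearMap.ext fun y => Subtype.ext (Subtype.ext ?_)
      have h2 := hfr ℓ hℓ hℓN A hA g hg ((y : heckeTorsion J 𝔪) : J) ⟨1, hpt _⟩
      simp only [LinearMap.add_apply, LinearMap.sub_apply, Module.End.mul_apply,
        LinearMap.smul_apply, Module.End.one_apply, LinearMap.zero_apply]
      push_cast
      rw [hσ₀, hσ₀]
      rw [Nat.cast_smul_eq_nsmul]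
      exact h2
    have h3 := congrArg (LinearMap.baseChange F) h1
    rw [LinearMap.baseChange_add, LinearMap.baseChange_sub, LinearMap.baseChange_mul,
      LinearMap.baseChange_zero] at h3
    have h4 : ∀ (c : κ) (f : Module.End κ W₀), (c • f).baseChange F = (θ c) • f.baseChange F := by
      intro c f
      refine TensorProduct.AlgebraTensorModule.ext fun b y => ?_
      simp only [LinearMap.baseChange_tmul, LinearMap.smul_apply]
      rw [TensorProduct.tmul_smul, TensorProduct.smul_tmul', TensorProduct.smul_tmul',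
        Algebra.smul_def, hθ]
      rfl
    rw [h4, h4, LinearMap.baseChange_one, map_natCast, ← ha ℓ hℓ] at h3
    exact h3
  obtain ⟨M, hM1, hM2, hM3⟩ := exists_matrixRep_of_frobeniusQuadratic hden hp hN σW hlev hur' a hfrob
  refine ⟨M, hM1, hM2, fun ℓ hℓ hℓN A hA g hg => ?_⟩
  rw [← ha ℓ hℓ]
  exact hM3 ℓ hℓ hℓN A hA g hg

end StepB

end Fermat.Agent.ResidualAttachment
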